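import Mathlib.FieldTheory.IntermediateField.Adjoin.Algebra
import Mathlib.RingTheory.Localization.FractionRing
import Mathlib.RingTheory.Ideal.Maps
import Mathlib.Algebra.MvPolynomial.Eval
import Mathlib.RingTheory.Adjoin.Polynomial.Basic

/-!
# S24 cusp package — piece [C-EMB], part 1 (helper646)

Generic embedding lemma (pure algebra, Mathlib only):
* `exists_embedding_of_same_relations`
* `ringHom_ext_adjoin`

Statements are exactly those frozen in `Fermat/Agent/S24/Cusp/Skeleton.lean`
(origin/helper46 @8a3c758).
-/

set_option autoImplicit false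

noncomputable section

namespace Fermat.Agent.S24.Cusp

open IntermediateField.algebraAdjoinAdjoin

/-- The evaluation hom `K[X_s] → Algebra.adjoin K (range x)`, `X_s ↦ x s`. -/
def emb_aevalAdjoin {K E S : Type*} [Field K] [Field E] [Algebra K E] (x : S → E) :
    MvPolynomial S K →ₐ[K] ↥(Algebra.adjoin K (Set.range x)) :=
  (MvPolynomial.aeval x).codRestrict (Algebra.adjoin K (Set.range x)) (fun P => by
    rw [Algebra.adjoin_range_eq_range_aeval]
    exact AlgHom.mem_range_self _ P)

@[simp]
theorem emb_coe_aevalAdjoin {K E S : Type*} [Field K] [Field E] [Algebra K E] (x : S → E)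
    (P : MvPolynomial S K) : ((emb_aevalAdjoin x P : ↥(Algebra.adjoin K (Set.range x))) : E) =
      MvPolynomial.aeval x P := rfl

theorem emb_aevalAdjoin_surjective {K E S : Type*} [Field K] [Field E] [Algebra K E]
    (x : S → E) : Function.Surjective (emb_aevalAdjoin (K := K) x) := by
  rintro ⟨r, hr⟩
  rw [Algebra.adjoin_range_eq_range_aeval] at hr
  obtain ⟨P, rfl⟩ := hr
  exact ⟨P, Subtype.ext rfl⟩

/-- Let `x : S → E` generate the field `K(x) ⊆ E` and let `y : S → L`, `κ : K → L` be such that
`x` and `y` satisfy the same polynomial relations (through `κ`).  Then there is a field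
embedding `K(x) → L` extending `κ` with `x s ↦ y s`. -/
theorem exists_embedding_of_same_relations
    {K E L S : Type*} [Field K] [Field E] [Algebra K E] [Field L] (κ : K →+* L)
    (x : S → E) (y : S → L)
    (hker : ∀ P : MvPolynomial S K, MvPolynomial.aeval x P = 0 ↔ MvPolynomial.eval₂ κ y P = 0) :
    ∃ σ : ↥(IntermediateField.adjoin K (Set.range x)) →+* L,
      (∀ c : K, σ (algebraMap K _ c) = κ c) ∧
      (∀ s : S, σ ⟨x s, IntermediateField.subset_adjoin K _ ⟨s, rfl⟩⟩ = y s) := by
  classical
  set f : MvPolynomial S K →+* ↥(Algebra.adjoin K (Set.range x)) :=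
    (emb_aevalAdjoin (K := K) x).toRingHom with hf_def
  have hf : Function.Surjective f := emb_aevalAdjoin_surjective x
  set ψ : MvPolynomial S K →+* L := MvPolynomial.eval₂Hom κ y with hψ_def
  have hfψ : RingHom.ker f ≤ RingHom.ker ψ := by
    intro P hP
    rw [RingHom.mem_ker] at hP ⊢
    have h0 : MvPolynomial.aeval x P = 0 := by
      have := congrArg (Subtype.val) hP
      simpa [hf_def] using this
    exact (hker P).mp h0
  set ψ' : ↥(Algebra.adjoin K (Set.range x)) →+* L := f.liftOfSurjective hf ⟨ψ, hfψ⟩ with hψ'_def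
  have hψ' : ∀ P, ψ' (f P) = ψ P := fun P => f.liftOfSurjective_comp_apply hf ⟨ψ, hfψ⟩ P
  have hinj : Function.Injective ψ' := by
    rw [injective_iff_map_eq_zero]
    intro r hr
    obtain ⟨P, rfl⟩ := hf r
    rw [hψ'] at hr
    have h0 : MvPolynomial.aeval x P = 0 := (hker P).mpr hr
    exact Subtype.ext h0
  refine ⟨IsFractionRing.lift (A := ↥(Algebra.adjoin K (Set.range x)))
    (K := ↥(IntermediateField.adjoin K (Set.range x))) hinj, ?_, ?_⟩
  · intro c
    have h1 : algebraMap K ↥(IntermediateField.adjoin K (Set.range x)) c =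
        algebraMap ↥(Algebra.adjoin K (Set.range x)) ↥(IntermediateField.adjoin K (Set.range x))
          (f (MvPolynomial.C c)) := by
      apply Subtype.ext
      simp [hf_def]
    rw [h1, IsFractionRing.lift_algebraMap, hψ']
    simp [hψ_def]
  · intro s
    have h1 : (⟨x s, IntermediateField.subset_adjoin K _ ⟨s, rfl⟩⟩ :
        ↥(IntermediateField.adjoin K (Set.range x))) =
        algebraMap ↥(Algebra.adjoin K (Set.range x)) ↥(IntermediateField.adjoin K (Set.range x))
          (f (MvPolynomial.X s)) := by
      apply Subtype.ext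
      simp [hf_def]
    rw [h1, IsFractionRing.lift_algebraMap, hψ']
    simp [hψ_def]

/-- Two ring homs out of `K(x)` agreeing on `K` and on the generators are equal. -/
theorem ringHom_ext_adjoin
    {K E L S : Type*} [Field K] [Field E] [Algebra K E] [Field L]
    (x : S → E) (σ σ' : ↥(IntermediateField.adjoin K (Set.range x)) →+* L)
    (hK : ∀ c : K, σ (algebraMap K _ c) = σ' (algebraMap K _ c))
    (hx : ∀ s : S, σ ⟨x s, IntermediateField.subset_adjoin K _ ⟨s, rfl⟩⟩
      = σ' ⟨x s, IntermediateField.subset_adjoin K _ ⟨s, rfl⟩⟩) : σ = σ' := by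
  classical
  refine IsLocalization.ringHom_ext (nonZeroDivisors ↥(Algebra.adjoin K (Set.range x))) ?_
  -- the two restrictions to `Algebra.adjoin` agree after composing with the surjection from
  -- the polynomial ring
  have hsurj := emb_aevalAdjoin_surjective (K := K) x
  refine RingHom.ext fun r => ?_
  obtain ⟨P, rfl⟩ := hsurj r
  simp only [RingHom.comp_apply]
  induction P using MvPolynomial.induction_on with
  | C c =>
    have h1 : algebraMap ↥(Algebra.adjoin K (Set.range x))
        ↥(IntermediateField.adjoin K (Set.range x)) (emb_aevalAdjoin x (MvPolynomial.C c)) =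
        algebraMap K ↥(IntermediateField.adjoin K (Set.range x)) c := by
      apply Subtype.ext
      simp
    rw [h1]
    exact hK c
  | add p q hp hq =>
    rw [map_add, map_add, map_add, map_add, hp, hq]
  | mul_X p s hp =>
    have h1 : algebraMap ↥(Algebra.adjoin K (Set.range x))
        ↥(IntermediateField.adjoin K (Set.range x)) (emb_aevalAdjoin x (MvPolynomial.X s)) =
        ⟨x s, IntermediateField.subset_adjoin K _ ⟨s, rfl⟩⟩ := by
      apply Subtype.ext
      simp
    rw [map_mul, map_mul, map_mul, map_mul, hp, h1, hx s]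

end Fermat.Agent.S24.Cusp
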