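import Fermat.Agent.S24.Cusp.Defs

/-!
# S24 cusp package — piece [C-EMB], part 2 (backup by helper646)

* `FF_eq_adjoin`
* `coeffMap_embC_jdK`

Statements are exactly those frozen in `Fermat/Agent/S24/Cusp/Skeleton.lean`
(origin/helper46 @8a3c758).
-/

set_option autoImplicit false

noncomputable section

open AlgebraicCurve ModularCurve UpperHalfPlane
open scoped MatrixGroups

namespace Fermat.Agent.S24.Cusp

/-- `coeffMap` commutes with `qExpand`. -/
theorem embFF_coeffMap_qExpand {R S : Type*} [CommRing R] [CommRing S] (f : R →+* S) (n : ℕ)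
    [NeZero n] (x : LaurentSeries R) :
    coeffMap f (qExpand R n x) = qExpand S n (coeffMap f x) := by
  ext k
  by_cases hk : (n : ℤ) ∣ k
  · obtain ⟨m, rfl⟩ := hk
    rw [coeffMap_coeff, qExpand_coeff_mul, qExpand_coeff_mul, coeffMap_coeff]
  · rw [coeffMap_coeff, qExpand_coeff_of_not_dvd n x hk, qExpand_coeff_of_not_dvd n _ hk,
      map_zero]

/-- The function field is generated over `ℚ̄` by the `j(q^d)`, `d ∣ N`. -/
theorem FF_eq_adjoin (N : ℕ) [NeZero N] :
    modularFunctionFieldBar N = IntermediateField.adjoin Kbar (Set.range (genK N)) := by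
  apply le_antisymm
  · -- `≤`
    show laurentBaseChange Kbar (modularFunctionFieldFull N) ≤ _
    rw [laurentBaseChange, IntermediateField.adjoin_le_iff]
    rintro _ ⟨x, hx, rfl⟩
    have hx' : x ∈ IntermediateField.adjoin ℚ (divisorExpansions N) := hx
    induction hx' using IntermediateField.adjoin_induction with
    | mem y hy =>
      obtain ⟨d, hne, hdvd, rfl⟩ := hy
      have := hne
      refine IntermediateField.subset_adjoin Kbar _ ⟨⟨d, hdvd⟩, ?_⟩
      show jdK d = _
      rw [jdK_eq]
    | algebraMap c =>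
      have h : coeffEmb Kbar (algebraMap ℚ (LaurentSeries ℚ) c) =
          algebraMap Kbar (LaurentSeries Kbar) (algebraMap ℚ Kbar c) := by
        rw [algebraMap_apply_eq_single, algebraMap_laurentSeries_eq_single, coeffEmb,
          coeffMap_single]
      rw [h]
      exact IntermediateField.algebraMap_mem _ _
    | add y z hy' hz' hy hz =>
      rw [map_add]
      exact add_mem (hy hy') (hz hz')
    | inv y hy' hy =>
      rw [map_inv₀]
      exact inv_mem (hy hy')
    | mul y z hy' hz' hy hz =>
      rw [map_mul]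
      exact mul_mem (hy hy') (hz hz')
  · -- `≥`
    rw [IntermediateField.adjoin_le_iff]
    rintro _ ⟨⟨d, hd⟩, rfl⟩
    have hd0 : d ≠ 0 := fun h => NeZero.ne N (by simpa [h] using hd)
    have : NeZero d := ⟨hd0⟩
    show jdK d ∈ laurentBaseChange Kbar (modularFunctionFieldFull N)
    rw [jdK_eq]
    exact coeffEmb_mem_laurentBaseChange Kbar (jqd_mem_full N hd)

/-- compatibility of the coefficient embeddings. -/
theorem coeffMap_embC_jdK (d : ℕ) [NeZero d] :
    coeffMap embC (jdK d) = qExpand ℂ d jqC := by
  have h : embC.comp (algebraMap ℚ Kbar) = algebraMap ℚ ℂ := Subsingleton.elim _ _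
  rw [jdK_eq, jqC, coeffEmb, coeffEmb, coeffMap_coeffMap, embFF_coeffMap_qExpand, h]

end Fermat.Agent.S24.Cusp
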