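import Fermat.Agent.S24.Cusp.Gen
import Fermat.Agent.S24.Cusp.Emb
import Fermat.Agent.S24.Cusp.EmbFF

/-!
# S24 cusp package — [C-CORE] the embeddings at `∞` (helper46)

`nonempty_cuspCore`: from an abstract `J` with `hJinv`, `hJq` construct the family of embeddings
`E g : FF N →+* ℂ((z))` (`z = q^{1/N}`, "expansion of `f ∘ g⁻¹` at `∞`").
-/

set_option autoImplicit false
set_option linter.unusedSectionVars false

noncomputable section

open AlgebraicCurve ModularCurve UpperHalfPlane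
open scoped MatrixGroups

namespace Fermat.Agent.S24.Cusp

/-- The graph relation: `φ` (over `ℚ̄`) is the `q`-expansion of a `Γ₀(N)`-invariant function `F`
and `ψ` is the `q_N`-expansion of `F ∘ g⁻¹`. -/
def Graph (N : ℕ) (g : SL(2, ℤ)) (φ : LaurentSeries Kbar) (ψ : LaurentSeries ℂ) : Prop :=
  ∃ F : ℍ → ℂ, (∀ γ ∈ CongruenceSubgroup.Gamma0 N, ∀ τ : ℍ, F (γ • τ) = F τ) ∧
    Rep 1 (coeffMap embC φ) F ∧ Rep N ψ (fun τ => F (g⁻¹ • τ))

/-- the coefficient homomorphism `ℚ̄ → ℂ((z))`. -/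
def kappa : Kbar →+* LaurentSeries ℂ := (HahnSeries.C : ℂ →+* LaurentSeries ℂ).comp embC

section graph

variable {N : ℕ} [NeZero N] {g : SL(2, ℤ)}

theorem core_coeffMap_algebraMap (c : Kbar) :
    coeffMap embC (algebraMap Kbar (LaurentSeries Kbar) c) = HahnSeries.C (embC c) := by
  rw [algebraMap_laurentSeries_eq_single, coeffMap_single]
  rfl

theorem core_coeffMap_injective : Function.Injective (coeffMap embC) := by
  intro x y hxy
  ext n
  have := congrArg (fun z => z.coeff n) hxy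
  simp only [coeffMap_coeff] at this
  exact embC.injective this

theorem Graph.const (c : Kbar) :
    Graph N g (algebraMap Kbar (LaurentSeries Kbar) c) (kappa c) := by
  refine ⟨fun _ => embC c, fun _ _ _ => rfl, ?_, ?_⟩
  · rw [core_coeffMap_algebraMap]
    exact Rep.const 1 _
  · exact Rep.const N _

theorem Graph.add {φ φ' : LaurentSeries Kbar} {ψ ψ' : LaurentSeries ℂ}
    (h : Graph N g φ ψ) (h' : Graph N g φ' ψ') : Graph N g (φ + φ') (ψ + ψ') := by
  obtain ⟨F, hF, h1, h2⟩ := h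
  obtain ⟨F', hF', h1', h2'⟩ := h'
  refine ⟨F + F', fun γ hγ τ => ?_, ?_, ?_⟩
  · simp only [Pi.add_apply, hF γ hγ τ, hF' γ hγ τ]
  · rw [map_add]
    exact h1.add h1'
  · exact h2.add h2'

theorem Graph.mul {φ φ' : LaurentSeries Kbar} {ψ ψ' : LaurentSeries ℂ}
    (h : Graph N g φ ψ) (h' : Graph N g φ' ψ') : Graph N g (φ * φ') (ψ * ψ') := by
  obtain ⟨F, hF, h1, h2⟩ := h
  obtain ⟨F', hF', h1', h2'⟩ := h'
  refine ⟨F * F', fun γ hγ τ => ?_, ?_, ?_⟩
  · simp only [Pi.mul_apply, hF γ hγ τ, hF' γ hγ τ]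
  · rw [map_mul]
    exact h1.mul h1'
  · exact h2.mul h2'

theorem Graph.unique_right {φ : LaurentSeries Kbar} {ψ ψ' : LaurentSeries ℂ}
    (h : Graph N g φ ψ) (h' : Graph N g φ ψ') : ψ = ψ' := by
  obtain ⟨F, -, h1, h2⟩ := h
  obtain ⟨F', -, h1', h2'⟩ := h'
  have hFF : F = F' := h1.fun_unique h1'
  subst hFF
  exact h2.series_unique h2'

theorem Graph.unique_left {φ φ' : LaurentSeries Kbar} {ψ : LaurentSeries ℂ}
    (h : Graph N g φ ψ) (h' : Graph N g φ' ψ) : φ = φ' := by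
  obtain ⟨F, -, h1, h2⟩ := h
  obtain ⟨F', -, h1', h2'⟩ := h'
  have hFF : (fun τ => F (g⁻¹ • τ)) = (fun τ => F' (g⁻¹ • τ)) := h2.fun_unique h2'
  have hFF' : F = F' := by
    funext τ
    have := congrFun hFF (g • τ)
    simpa using this
  subst hFF'
  exact core_coeffMap_injective (h1.series_unique h1')

/-- Change of the coset representative inside `g Γ₀(N)`. -/
theorem Graph.mul_Gamma0 {φ : LaurentSeries Kbar} {ψ : LaurentSeries ℂ} {γ : SL(2, ℤ)}
    (hγ : γ ∈ CongruenceSubgroup.Gamma0 N) (h : Graph N (g * γ) φ ψ) : Graph N g φ ψ := by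
  obtain ⟨F, hF, h1, h2⟩ := h
  refine ⟨F, hF, h1, ?_⟩
  have : (fun τ => F ((g * γ)⁻¹ • τ)) = (fun τ => F (g⁻¹ • τ)) := by
    funext τ
    rw [mul_inv_rev, mul_smul]
    exact hF γ⁻¹ (inv_mem hγ) _
  rwa [this] at h2

/-- Translation `τ ↦ τ + 1`. -/
theorem Graph.T {φ : LaurentSeries Kbar} {ψ : LaurentSeries ℂ}
    (h : Graph N g φ ψ) : Graph N (ModularGroup.T⁻¹ * g) φ (rotFun (zetaU N) ψ) := by
  obtain ⟨F, hF, h1, h2⟩ := h
  refine ⟨F, hF, h1, ?_⟩
  have h3 := h2.subst (h' := N) (fun τ => ModularGroup.T • τ) (zetaU N) 1 (fun τ => qh_T N τ)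
  rw [qExpand_one_apply] at h3
  have : (fun τ => F ((ModularGroup.T⁻¹ * g)⁻¹ • τ))
      = (fun τ => (fun τ => F (g⁻¹ • τ)) ((fun τ => ModularGroup.T • τ) τ)) := by
    funext τ
    simp only [mul_inv_rev, inv_inv, mul_smul]
  rw [this]
  exact h3

theorem core_graph_zero (N : ℕ) [NeZero N] (g : SL(2, ℤ)) : Graph N g 0 0 := by
  have := Graph.const (N := N) (g := g) 0
  simpa [kappa] using this

end graph

section gens

variable (N : ℕ) [NeZero N]
variable (J : ℍ → ℂ) (hJinv : ∀ (γ : SL(2, ℤ)) (τ : ℍ), J (γ • τ) = J τ) (hJq : Rep 1 jqC J)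

theorem core_neZero_of_dvd {d : ℕ} (hd : d ∣ N) : NeZero d :=
  ⟨fun h => NeZero.ne N (by rw [h] at hd; exact Nat.eq_zero_of_zero_dvd hd)⟩

include hJinv hJq

/-- the generators are in the graph, with `F = J(d·)`. -/
theorem Graph.gen (g : SL(2, ℤ)) (d : {d : ℕ // d ∣ N}) :
    ∃ ψ : LaurentSeries ℂ, Graph N g (genK N d) ψ ∧
      Rep N ψ (fun τ => Jd J d.1 (g⁻¹ • τ)) := by
  have : NeZero d.1 := core_neZero_of_dvd N d.2
  obtain ⟨ψ, hψ⟩ := rep_Jd_conj J hJinv hJq N d.1 d.2 g⁻¹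
  refine ⟨ψ, ⟨Jd J d.1, fun γ hγ τ => Jd_invariant J hJinv hJq N d.1 d.2 γ hγ τ, ?_, hψ⟩, hψ⟩
  show Rep 1 (coeffMap embC (jdK d.1)) (Jd J d.1)
  rw [coeffMap_embC_jdK]
  exact rep_Jd J hJinv hJq d.1

/-- a choice of conjugate expansions of the generators. -/
def conjGen (g : SL(2, ℤ)) (d : {d : ℕ // d ∣ N}) : LaurentSeries ℂ :=
  (Graph.gen N J hJinv hJq g d).choose

theorem conjGen_graph (g : SL(2, ℤ)) (d : {d : ℕ // d ∣ N}) :
    Graph N g (genK N d) (conjGen N J hJinv hJq g d) :=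
  (Graph.gen N J hJinv hJq g d).choose_spec.1

theorem conjGen_rep (g : SL(2, ℤ)) (d : {d : ℕ // d ∣ N}) :
    Rep N (conjGen N J hJinv hJq g d) (fun τ => Jd J d.1 (g⁻¹ • τ)) :=
  (Graph.gen N J hJinv hJq g d).choose_spec.2

theorem core_graph_poly (g : SL(2, ℤ)) (P : MvPolynomial {d : ℕ // d ∣ N} Kbar) :
    Graph N g (MvPolynomial.aeval (genK N) P)
      (MvPolynomial.eval₂ kappa (conjGen N J hJinv hJq g) P) := by
  induction P using MvPolynomial.induction_on with
  | C a =>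
    rw [MvPolynomial.aeval_C, MvPolynomial.eval₂_C]
    exact Graph.const a
  | add p q hp hq =>
    rw [map_add, MvPolynomial.eval₂_add]
    exact hp.add hq
  | mul_X p i hp =>
    rw [map_mul, MvPolynomial.eval₂_mul, MvPolynomial.aeval_X, MvPolynomial.eval₂_X]
    exact hp.mul (conjGen_graph N J hJinv hJq g i)

theorem core_hker (g : SL(2, ℤ)) (P : MvPolynomial {d : ℕ // d ∣ N} Kbar) :
    MvPolynomial.aeval (genK N) P = 0 ↔
      MvPolynomial.eval₂ kappa (conjGen N J hJinv hJq g) P = 0 := by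
  have h := core_graph_poly N J hJinv hJq g P
  constructor
  · intro h0
    rw [h0] at h
    exact h.unique_right (core_graph_zero N g)
  · intro h0
    rw [h0] at h
    exact h.unique_left (core_graph_zero N g)

/-- the embedding on `ℚ̄(j_d : d ∣ N)`. -/
theorem core_exists_emb (g : SL(2, ℤ)) :
    ∃ σ : ↥(IntermediateField.adjoin Kbar (Set.range (genK N))) →+* LaurentSeries ℂ,
      (∀ c : Kbar, σ (algebraMap Kbar _ c) = kappa c) ∧
      (∀ d : {d : ℕ // d ∣ N},
        σ ⟨genK N d, IntermediateField.subset_adjoin Kbar _ ⟨d, rfl⟩⟩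
          = conjGen N J hJinv hJq g d) :=
  exists_embedding_of_same_relations kappa (genK N) (conjGen N J hJinv hJq g)
    (core_hker N J hJinv hJq g)

/-- the embedding `E g` on the function field. -/
def coreE (g : SL(2, ℤ)) : FF N →+* LaurentSeries ℂ :=
  (core_exists_emb N J hJinv hJq g).choose.comp
    ((IntermediateField.inclusion (le_of_eq (FF_eq_adjoin N))) : FF N →+* _)

/-- the generators as elements of the function field. -/
def genF (d : {d : ℕ // d ∣ N}) : FF N :=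
  ⟨genK N d, by
    rw [FF_eq_adjoin N]
    exact IntermediateField.subset_adjoin Kbar _ ⟨d, rfl⟩⟩

theorem coreE_const (g : SL(2, ℤ)) (c : Kbar) :
    coreE N J hJinv hJq g (algebraMap Kbar (FF N) c) = kappa c := by
  have h := (core_exists_emb N J hJinv hJq g).choose_spec.1 c
  rw [← h]
  rfl

theorem coreE_gen (g : SL(2, ℤ)) (d : {d : ℕ // d ∣ N}) :
    coreE N J hJinv hJq g (genF N d) = conjGen N J hJinv hJq g d := by
  have h := (core_exists_emb N J hJinv hJq g).choose_spec.2 d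
  rw [← h]
  rfl

end gens

section props

variable (N : ℕ) [NeZero N]

/-- extensionality for ring homs out of the function field. -/
theorem core_ringHom_ext (σ σ' : FF N →+* LaurentSeries ℂ)
    (hK : ∀ c : Kbar, σ (algebraMap Kbar (FF N) c) = σ' (algebraMap Kbar (FF N) c))
    (hx : ∀ d : {d : ℕ // d ∣ N}, σ (genF N d) = σ' (genF N d)) : σ = σ' := by
  have hle : IntermediateField.adjoin Kbar (Set.range (genK N)) ≤ modularFunctionFieldBar N :=
    le_of_eq (FF_eq_adjoin N).symm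
  let incl : ↥(IntermediateField.adjoin Kbar (Set.range (genK N))) →+* FF N :=
    (IntermediateField.inclusion hle : _ →+* _)
  have h := ringHom_ext_adjoin (K := Kbar) (genK N) (σ.comp incl) (σ'.comp incl)
    (fun c => hK c) (fun d => hx d)
  refine RingHom.ext fun f => ?_
  have hf : (f : LaurentSeries Kbar) ∈ IntermediateField.adjoin Kbar (Set.range (genK N)) := by
    rw [← FF_eq_adjoin N]
    exact f.2
  let x : ↥(IntermediateField.adjoin Kbar (Set.range (genK N))) := ⟨f.1, hf⟩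
  have h2 := RingHom.congr_fun h x
  have h3 : incl x = f := Subtype.ext rfl
  rw [RingHom.comp_apply, RingHom.comp_apply, h3] at h2
  exact h2

variable (J : ℍ → ℂ) (hJinv : ∀ (γ : SL(2, ℤ)) (τ : ℍ), J (γ • τ) = J τ) (hJq : Rep 1 jqC J)

include hJinv hJq

theorem coreE_graph (g : SL(2, ℤ)) (d : {d : ℕ // d ∣ N}) :
    Graph N g (genK N d) (coreE N J hJinv hJq g (genF N d)) := by
  rw [coreE_gen]
  exact conjGen_graph N J hJinv hJq g d

theorem coreE_mul_Gamma0 (g γ : SL(2, ℤ)) (hγ : γ ∈ CongruenceSubgroup.Gamma0 N) :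
    coreE N J hJinv hJq (g * γ) = coreE N J hJinv hJq g := by
  refine core_ringHom_ext N _ _ (fun c => ?_) (fun d => ?_)
  · rw [coreE_const, coreE_const]
  · exact ((coreE_graph N J hJinv hJq (g * γ) d).mul_Gamma0 hγ).unique_right
      (coreE_graph N J hJinv hJq g d)

theorem coreE_T (g : SL(2, ℤ)) (f : FF N) :
    coreE N J hJinv hJq (ModularGroup.T⁻¹ * g) f
      = rotFun (zetaU N) (coreE N J hJinv hJq g f) := by
  obtain ⟨r, hr⟩ := exists_rot (zetaU N)
  have : coreE N J hJinv hJq (ModularGroup.T⁻¹ * g) = r.comp (coreE N J hJinv hJq g) := by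
    refine core_ringHom_ext N _ _ (fun c => ?_) (fun d => ?_)
    · rw [RingHom.comp_apply, coreE_const, coreE_const, hr]
      exact (rotFun_C _ _).symm
    · rw [RingHom.comp_apply, hr]
      exact (coreE_graph N J hJinv hJq (ModularGroup.T⁻¹ * g) d).unique_right
        (coreE_graph N J hJinv hJq g d).T
  rw [this, RingHom.comp_apply, hr]

theorem coreE_j (g : SL(2, ℤ)) : coreE N J hJinv hJq g (jF N) = qExpand ℂ N jqC := by
  have h1 : jF N = genF N ⟨1, one_dvd N⟩ := by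
    apply Subtype.ext
    show coeffEmb Kbar jq = jdK 1
    rw [jdK_eq, qExpand_one_apply]
  rw [h1]
  refine (coreE_graph N J hJinv hJq g ⟨1, one_dvd N⟩).unique_right ?_
  refine ⟨Jd J 1, fun γ hγ τ => Jd_invariant J hJinv hJq N 1 (one_dvd N) γ hγ τ, ?_, ?_⟩
  · show Rep 1 (coeffMap embC (jdK 1)) (Jd J 1)
    rw [coeffMap_embC_jdK]
    exact rep_Jd J hJinv hJq 1
  · exact rep_J_widthN J hJinv hJq N g⁻¹

theorem coreE_inj (g g' : SL(2, ℤ)) (h : coreE N J hJinv hJq g = coreE N J hJinv hJq g') :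
    g⁻¹ * g' ∈ CongruenceSubgroup.Gamma0 N := by
  have hN : N ∣ N := dvd_rfl
  have h1 := conjGen_rep N J hJinv hJq g ⟨N, hN⟩
  have h2 := conjGen_rep N J hJinv hJq g' ⟨N, hN⟩
  rw [← coreE_gen] at h1 h2
  rw [h] at h1
  have h3 := h1.fun_unique h2
  refine mem_Gamma0_of_JN_eq J hJinv hJq N _ (fun τ => ?_)
  have := congrFun h3 (g' • τ)
  simp only [inv_smul_smul] at this
  rw [mul_smul]
  exact this

theorem nonempty_cuspCore : Nonempty (CuspCore N) :=
  ⟨{ E := coreE N J hJinv hJq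
     E_const := fun g c => coreE_const N J hJinv hJq g c
     E_j := coreE_j N J hJinv hJq
     E_mul_Gamma0 := coreE_mul_Gamma0 N J hJinv hJq
     E_T := coreE_T N J hJinv hJq
     E_inj := coreE_inj N J hJinv hJq }⟩

end props

end Fermat.Agent.S24.Cusp
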