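import Fermat.Agent.S24.Cusp.LD
import Fermat.Agent.S24.JFun.Laurent

/-!
# S24 cusp package — the `LocalData` at `∞` for the function field of `X₀(N)` (helper46)

Instantiation of `Cusp.exists_dataInf` with `J = JFun.jFun = E₄³/Δ`
(invariance: `JFun.jFun_smul`, `q`-expansion: `JFun.hasSum_jFun`).
`exists_dataInf_jFun N` is exactly the pair of fields `dataInf`, `orbits_inf` of
`Fermat.Agent.S24.ModularPackage N`.
-/

set_option autoImplicit false

noncomputable section

open AlgebraicCurve ModularCurve UpperHalfPlane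
open scoped MatrixGroups

namespace Fermat.Agent.S24.Cusp

theorem dataInf_jqC_eq : jqC = ModularCurve.jqModC ℂ := by
  rw [← ModularCurve.map_jqModC (K := ℚ) (algebraMap ℚ ℂ), ModularCurve.jqModC_rat]
  rfl

theorem dataInf_qh_one (τ : ℍ) : qh 1 τ = Function.Periodic.qParam 1 (τ : ℂ) := by
  simp [qh, Function.Periodic.qParam]

theorem dataInf_rep_jFun : Rep 1 jqC JFun.jFun := by
  intro τ
  rw [dataInf_jqC_eq]
  have h := JFun.hasSum_jFun τ
  simpa only [dataInf_qh_one] using h

/-- **The local data at the cusp `∞`** (`dataInf` and `orbits_inf` of `ModularPackage`). -/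
theorem exists_dataInf_jFun (N : ℕ) [NeZero N] :
    ∃ L : LocalData Kbar (FF N) ℂ (XX N) (jF N)⁻¹,
      numOrbits L.perm = numOrbits (permOf N ModularGroup.T) :=
  exists_dataInf N JFun.jFun JFun.jFun_smul dataInf_rep_jFun

end Fermat.Agent.S24.Cusp
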