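import Fermat.Agent.S24.Defs

/-!
# S24 — the cusp `∞`: shared definitions (FROZEN; squad S24/S46, lead helper46)

The only analytic input of the cusp package is an abstract function `J : ℍ → ℂ` with
* `hJinv : ∀ (γ : SL(2, ℤ)) (τ : ℍ), J (γ • τ) = J τ`
* `hJq   : Rep 1 jqC J`      (the `q`-expansion of `J` is the Prelude series `jq`).
Convergent Laurent expansions in `q_h = exp(2πiτ/h)` are treated as a RELATION `Rep h φ f`
between formal Laurent series and functions on `ℍ` (no holomorphy hypotheses anywhere).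
-/

set_option autoImplicit false

noncomputable section

open AlgebraicCurve ModularCurve UpperHalfPlane
open scoped MatrixGroups

namespace Fermat.Agent.S24.Cusp

/-- The local parameter `q_h(τ) = exp(2πiτ/h)` at `∞`. -/
def qh (h : ℕ) (τ : ℍ) : ℂ := Complex.exp (2 * Real.pi * Complex.I * (τ : ℂ) / h)

/-- `Rep h φ f`: the formal Laurent series `φ` converges to `f` on all of `ℍ` in the variable
`q_h`. -/
def Rep (h : ℕ) (φ : LaurentSeries ℂ) (f : ℍ → ℂ) : Prop :=
  ∀ τ : ℍ, HasSum (fun n : ℤ => φ.coeff n * qh h τ ^ n) (f τ)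

/-- The affine map `τ ↦ (aτ + b)/e` of `ℍ` (junk unless `0 < a`, `0 < e`). -/
def affH (a : ℕ) (b : ℤ) (e : ℕ) (τ : ℍ) : ℍ :=
  UpperHalfPlane.ofComplex (((a : ℂ) * (τ : ℂ) + (b : ℂ)) / (e : ℂ))

/-- `J(dτ)`. -/
def Jd (J : ℍ → ℂ) (d : ℕ) : ℍ → ℂ := fun τ => J (affH d 0 1 τ)

/-- The series `jq` with complex coefficients. -/
def jqC : LaurentSeries ℂ := coeffEmb ℂ jq

/-- A fixed embedding `ℚ̄ → ℂ`. -/
def embC : Kbar →+* ℂ :=
  letI : Algebra ℚ (AlgebraicClosure ℚ) := AlgebraicClosure.instAlgebra ℚ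
  ((IsAlgClosed.lift : AlgebraicClosure ℚ →ₐ[ℚ] ℂ) : AlgebraicClosure ℚ →+* ℂ)

/-- The generator `j(q^d)` of the function field, as an element of `ℚ̄((q))` (junk `0` for
`d = 0`). -/
def jdK (d : ℕ) : LaurentSeries Kbar :=
  if h : d = 0 then 0 else
    haveI : NeZero d := ⟨h⟩
    coeffEmb Kbar (qExpand ℚ d jq)

theorem jdK_eq (d : ℕ) [NeZero d] : jdK d = coeffEmb Kbar (qExpand ℚ d jq) := by
  unfold jdK
  rw [dif_neg (NeZero.ne d)]

/-- The generators of the function field of `X₀(N)`, indexed by the divisors of `N`. -/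
def genK (N : ℕ) : {d : ℕ // d ∣ N} → LaurentSeries Kbar := fun d => jdK d.1

/-- Rotation `φ(z) ↦ φ(c z)` of a Laurent series (coefficient `n` is multiplied by `c ^ n`). -/
def rotFun {C : Type*} [Field C] (c : Cˣ) (φ : LaurentSeries C) : LaurentSeries C where
  coeff n := ((c ^ n : Cˣ) : C) * φ.coeff n
  isPWO_support' := φ.isPWO_support.mono (fun n hn => by
    simp only [Function.mem_support, ne_eq] at hn ⊢
    intro h0
    exact hn (by rw [h0, mul_zero]))

@[simp]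
theorem rotFun_coeff {C : Type*} [Field C] (c : Cˣ) (φ : LaurentSeries C) (n : ℤ) :
    (rotFun c φ).coeff n = ((c ^ n : Cˣ) : C) * φ.coeff n := rfl

/-- `ζ_N = exp(2πi/N)` as a unit of `ℂ`. -/
def zetaU (N : ℕ) : ℂˣ :=
  Units.mk0 (Complex.exp (2 * Real.pi * Complex.I / N)) (Complex.exp_ne_zero _)

@[simp]
theorem coe_zetaU (N : ℕ) : (zetaU N : ℂ) = Complex.exp (2 * Real.pi * Complex.I / N) := rfl

/-- The family of embeddings `E g : F → ℂ((z))`, `z = q^{1/N}` ("expansion of `f ∘ g⁻¹` at `∞`"),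
with all the properties needed for `LocalData`. -/
structure CuspCore (N : ℕ) [NeZero N] where
  E : SL(2, ℤ) → (FF N →+* LaurentSeries ℂ)
  E_const : ∀ (g : SL(2, ℤ)) (c : Kbar),
    E g (algebraMap Kbar (FF N) c) = HahnSeries.C (embC c)
  E_j : ∀ g : SL(2, ℤ), E g (jF N) = qExpand ℂ N jqC
  E_mul_Gamma0 : ∀ (g γ : SL(2, ℤ)), γ ∈ CongruenceSubgroup.Gamma0 N → E (g * γ) = E g
  E_T : ∀ (g : SL(2, ℤ)) (f : FF N), E (ModularGroup.T⁻¹ * g) f = rotFun (zetaU N) (E g f)
  E_inj : ∀ g g' : SL(2, ℤ), E g = E g' → g⁻¹ * g' ∈ CongruenceSubgroup.Gamma0 N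

end Fermat.Agent.S24.Cusp
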