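import Fermat.Agent.S24.Cusp.Hnf

/-!
# S24 cusp package — [C-GEN] expansions of the conjugates of the generators
(adapter over `Fermat.Agent.S24.Inf.Gen`)
-/

set_option autoImplicit false
set_option linter.unusedVariables false

noncomputable section

open AlgebraicCurve ModularCurve UpperHalfPlane
open scoped MatrixGroups

namespace Fermat.Agent.S24.Cusp

section GEN

variable (J : ℍ → ℂ) (hJinv : ∀ (γ : SL(2, ℤ)) (τ : ℍ), J (γ • τ) = J τ) (hJq : Rep 1 jqC J)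

include hJinv hJq

theorem gen_Jd_apply {d : ℕ} (hd : 0 < d) (τ : ℍ) : Jd J d τ = J (infAff d 0 1 τ) := by
  rw [Jd, hnf_affH_eq_infAff hd one_pos]

/-- The generators themselves: `J(dτ)` has `q`-expansion `jq(q^d)`. -/
theorem rep_Jd (d : ℕ) [NeZero d] : Rep 1 (qExpand ℂ d jqC) (Jd J d) := by
  have hd : 0 < d := Nat.pos_of_ne_zero (NeZero.ne d)
  have h := inf_J_infAff_exp (rep_iff_infExp.mp hJq) (e := d) (N := 1) 0 hd one_pos one_pos rfl
  rw [infGenExp, infRoot_zero, infTwist_one] at h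
  exact rep_iff_infExp.mpr (h.congr fun τ => (gen_Jd_apply J hJinv hJq hd τ).symm)

/-- `Γ₀(N)`-invariance of `J(dτ)`, `d ∣ N`. -/
theorem Jd_invariant (N d : ℕ) [NeZero d] (hdN : d ∣ N) (γ : SL(2, ℤ))
    (hγ : γ ∈ CongruenceSubgroup.Gamma0 N) (τ : ℍ) : Jd J d (γ • τ) = Jd J d τ := by
  have hd : 0 < d := Nat.pos_of_ne_zero (NeZero.ne d)
  obtain ⟨γ', hγ'⟩ := exists_conj_Gamma0 N d hd hdN γ hγ
  rw [Jd, Jd, hγ' τ, hJinv]

/-- Every conjugate `J(d·gτ)` (`d ∣ N`) has a Laurent expansion in `q_N`. -/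
theorem rep_Jd_conj (N d : ℕ) [NeZero N] [NeZero d] (hdN : d ∣ N) (g : SL(2, ℤ)) :
    ∃ ψ : LaurentSeries ℂ, Rep N ψ (fun τ => Jd J d (g • τ)) := by
  have hd : 0 < d := Nat.pos_of_ne_zero (NeZero.ne d)
  obtain ⟨ψ, hψ⟩ := inf_J_mul_smul_mem_expRing hJinv (rep_iff_infExp.mp hJq) hdN g
  exact ⟨ψ, rep_iff_infExp.mpr (hψ.congr fun τ => (gen_Jd_apply J hJinv hJq hd _).symm)⟩

/-- `J ∘ g = J` has the expansion `jq(q_N^N)` in `q_N`. -/
theorem rep_J_widthN (N : ℕ) [NeZero N] (g : SL(2, ℤ)) :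
    Rep N (qExpand ℂ N jqC) (fun τ => Jd J 1 (g • τ)) := by
  have hN : 0 < N := Nat.pos_of_ne_zero (NeZero.ne N)
  have h := inf_J_infAff_exp (rep_iff_infExp.mp hJq) (e := N) (N := N) 0 one_pos one_pos hN
    (by ring)
  rw [infGenExp, infRoot_zero, infTwist_one] at h
  refine rep_iff_infExp.mpr (h.congr fun τ => ?_)
  rw [gen_Jd_apply J hJinv hJq one_pos, infAff_one_zero_one, infAff_one_zero_one, hJinv]

/-- Distinctness: `J(N·γτ) = J(Nτ)` for all `τ` forces `γ ∈ Γ₀(N)`. -/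
theorem mem_Gamma0_of_JN_eq (N : ℕ) [NeZero N] (γ : SL(2, ℤ))
    (h : ∀ τ : ℍ, Jd J N (γ • τ) = Jd J N τ) : γ ∈ CongruenceSubgroup.Gamma0 N := by
  have hN : 0 < N := Nat.pos_of_ne_zero (NeZero.ne N)
  have := inf_distinct hJinv (rep_iff_infExp.mp hJq) (N := N) γ 1 (fun τ => by
    have := h τ
    rw [gen_Jd_apply J hJinv hJq hN, gen_Jd_apply J hJinv hJq hN] at this
    rw [one_smul]
    exact this)
  simpa using this

end GEN

end Fermat.Agent.S24.Cusp
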