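import Fermat.Agent.S24.Cusp.Rot

/-!
# S24 cusp package — [C-REP] calculus of convergent Laurent expansions
(adapter over `Fermat.Agent.S24.Inf.{Conv,Unique,Subst}`)
-/

set_option autoImplicit false

noncomputable section

open AlgebraicCurve ModularCurve UpperHalfPlane
open scoped MatrixGroups

namespace Fermat.Agent.S24.Cusp

section REP

theorem rep_qh_eq_infZ (h : ℕ) (τ : ℍ) : qh h τ = infZ h τ := by
  rw [qh, infZ_def]

theorem rep_iff_infExp {h : ℕ} {φ : LaurentSeries ℂ} {f : ℍ → ℂ} :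
    Rep h φ f ↔ InfExp h f φ := by
  unfold Rep InfExp
  simp only [rep_qh_eq_infZ]

theorem Rep.const (h : ℕ) [NeZero h] (c : ℂ) : Rep h (HahnSeries.C c) (fun _ => c) :=
  rep_iff_infExp.mpr (InfExp.const c)

theorem Rep.add {h : ℕ} [NeZero h] {φ ψ : LaurentSeries ℂ} {f g : ℍ → ℂ}
    (hf : Rep h φ f) (hg : Rep h ψ g) : Rep h (φ + ψ) (f + g) :=
  rep_iff_infExp.mpr ((rep_iff_infExp.mp hf).add (rep_iff_infExp.mp hg))

theorem Rep.neg {h : ℕ} [NeZero h] {φ : LaurentSeries ℂ} {f : ℍ → ℂ}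
    (hf : Rep h φ f) : Rep h (-φ) (-f) :=
  rep_iff_infExp.mpr (rep_iff_infExp.mp hf).neg

/-- Cauchy product. -/
theorem Rep.mul {h : ℕ} [NeZero h] {φ ψ : LaurentSeries ℂ} {f g : ℍ → ℂ}
    (hf : Rep h φ f) (hg : Rep h ψ g) : Rep h (φ * ψ) (f * g) :=
  rep_iff_infExp.mpr ((rep_iff_infExp.mp hf).mul (rep_iff_infExp.mp hg))

/-- Uniqueness of the function (trivial). -/
theorem Rep.fun_unique {h : ℕ} {φ : LaurentSeries ℂ} {f g : ℍ → ℂ}
    (hf : Rep h φ f) (hg : Rep h φ g) : f = g :=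
  funext fun τ => (hf τ).unique (hg τ)

/-- Uniqueness of the Laurent expansion (identity theorem on the punctured unit disc). -/
theorem Rep.series_unique {h : ℕ} [NeZero h] {φ ψ : LaurentSeries ℂ} {f : ℍ → ℂ}
    (hf : Rep h φ f) (hg : Rep h ψ f) : φ = ψ :=
  (rep_iff_infExp.mp hf).unique (rep_iff_infExp.mp hg)

/-- Substitution: if `q_h(u τ) = c · q_{h'}(τ)^k` then the expansion of `f ∘ u` in `q_{h'}` is
`φ(c z^k)`. -/
theorem Rep.subst {h h' : ℕ} [NeZero h] [NeZero h'] {φ : LaurentSeries ℂ} {f : ℍ → ℂ}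
    (hf : Rep h φ f) (u : ℍ → ℍ) (c : ℂˣ) (k : ℕ) [NeZero k]
    (hu : ∀ τ : ℍ, qh h (u τ) = (c : ℂ) * qh h' τ ^ k) :
    Rep h' (qExpand ℂ k (rotFun c φ)) (fun τ => f (u τ)) := by
  rw [rot_rotFun_eq_infTwist]
  refine rep_iff_infExp.mpr ((rep_iff_infExp.mp hf).subst u c k fun τ => ?_)
  rw [← rep_qh_eq_infZ, ← rep_qh_eq_infZ]
  exact hu τ

end REP

end Fermat.Agent.S24.Cusp
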