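import Mathlib.NumberTheory.Modular
import Fermat.Agent.S24.Cusp.Rep

/-!
# S24 cusp package — [C-HNF] Hermite normal form (adapter over `Fermat.Agent.S24.Inf.HNF`)
-/

set_option autoImplicit false

noncomputable section

open AlgebraicCurve ModularCurve UpperHalfPlane
open scoped MatrixGroups

namespace Fermat.Agent.S24.Cusp

section HNF

theorem hnf_affH_eq_infAff {a e : ℕ} (ha : 0 < a) (he : 0 < e) (b : ℤ) (τ : ℍ) :
    affH a b e τ = infAff a b e τ := by
  have h := infAff_coe ha he b τ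
  unfold affH
  rw [← h, UpperHalfPlane.ofComplex_apply]

theorem hnf_affH_coe {a e : ℕ} (ha : 0 < a) (he : 0 < e) (b : ℤ) (τ : ℍ) :
    (affH a b e τ : ℂ) = ((a : ℂ) * τ + b) / e := by
  rw [hnf_affH_eq_infAff ha he, infAff_coe ha he]

theorem hnf_zetaU_zpow (e : ℕ) (b : ℤ) : zetaU e ^ b = infRoot b e := by
  apply Units.ext
  rw [Units.val_zpow_eq_zpow_val, coe_zetaU, infRoot_coe, ← Complex.exp_int_mul]
  congr 1
  ring

/-- Hermite normal form of `diag(d,1)·g`, as an identity of maps of `ℍ`. -/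
theorem exists_hnf (d : ℕ) (hd : 0 < d) (g : SL(2, ℤ)) :
    ∃ (γ : SL(2, ℤ)) (a e : ℕ) (b : ℤ), 0 < a ∧ 0 < e ∧ a * e = d ∧
      (g ∉ CongruenceSubgroup.Gamma0 d → a < d) ∧
      ∀ τ : ℍ, affH d 0 1 (g • τ) = γ • affH a b e τ := by
  obtain ⟨γ, a, e, b, ha, he, hae, h00, h01, h10, h11⟩ := inf_exists_hnf d hd g
  refine ⟨γ, a, e, b, ha, he, hae, ?_, fun τ => ?_⟩
  · intro hg
    have hle : a ≤ d := by
      rw [← hae]
      exact Nat.le_mul_of_pos_right a he
    rcases Nat.lt_or_ge a d with h | h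
    · exact h
    · exfalso
      have had : a = d := le_antisymm hle h
      apply hg
      rw [CongruenceSubgroup.Gamma0_mem, ZMod.intCast_zmod_eq_zero_iff_dvd, h10, had]
      exact Dvd.intro_left _ rfl
  · rw [hnf_affH_eq_infAff hd one_pos, hnf_affH_eq_infAff ha he]
    exact inf_aff_smul_eq hd ha he g γ h00 h01 h10 h11 τ

/-- `Γ₀(N)` normalises the degeneracy maps: for `γ ∈ Γ₀(N)` and `d ∣ N`,
`d·(γτ) = γ'·(dτ)` with `γ' ∈ SL₂(ℤ)`. -/
theorem exists_conj_Gamma0 (N d : ℕ) (hd : 0 < d) (hdN : d ∣ N) (γ : SL(2, ℤ))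
    (hγ : γ ∈ CongruenceSubgroup.Gamma0 N) :
    ∃ γ' : SL(2, ℤ), ∀ τ : ℍ, affH d 0 1 (γ • τ) = γ' • affH d 0 1 τ := by
  have hN : (N : ℤ) ∣ γ 1 0 := by
    rw [CongruenceSubgroup.Gamma0_mem, ZMod.intCast_zmod_eq_zero_iff_dvd] at hγ
    exact hγ
  have hdvd : (d : ℤ) ∣ γ 1 0 := (Int.natCast_dvd_natCast.mpr hdN).trans hN
  obtain ⟨c, hc⟩ := hdvd
  have hdet := inf_sl_det γ
  refine ⟨⟨!![γ 0 0, (d : ℤ) * γ 0 1; c, γ 1 1], ?_⟩, fun τ => ?_⟩
  · rw [Matrix.det_fin_two_of]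
    rw [hc] at hdet
    linear_combination hdet
  · rw [hnf_affH_eq_infAff hd one_pos, hnf_affH_eq_infAff hd one_pos]
    refine inf_aff_smul_eq hd hd one_pos γ _ ?_ ?_ ?_ ?_ τ
    · simp only [Matrix.of_apply, Matrix.cons_val',
        Matrix.cons_val_zero, Matrix.cons_val_fin_one]
      ring
    · simp only [Matrix.of_apply, Matrix.cons_val',
        Matrix.cons_val_zero, Matrix.cons_val_one, Matrix.cons_val_fin_one]
      push_cast
      ring
    · simp only [Matrix.of_apply, Matrix.cons_val',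
        Matrix.cons_val_zero, Matrix.cons_val_one, Matrix.cons_val_fin_one]
      rw [hc]
      ring
    · simp only [Matrix.of_apply, Matrix.cons_val',
        Matrix.cons_val_zero, Matrix.cons_val_one, Matrix.cons_val_fin_one]
      push_cast
      ring

theorem affH_one (τ : ℍ) : affH 1 0 1 τ = τ := by
  rw [hnf_affH_eq_infAff one_pos one_pos, infAff_one_zero_one]

/-- The `q`-parameter of an affine image: `q_1((aτ+b)/e) = ζ_e^b · q_N(τ)^{aN/e}` when
`e ∣ N`. -/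
theorem qh_affH (N : ℕ) [NeZero N] (a e : ℕ) (b : ℤ) (ha : 0 < a) (he : 0 < e) (heN : e ∣ N)
    (τ : ℍ) :
    qh 1 (affH a b e τ) = ((zetaU e ^ b : ℂˣ) : ℂ) * qh N τ ^ (a * (N / e)) := by
  have hN : 0 < N := Nat.pos_of_ne_zero (NeZero.ne N)
  rw [rep_qh_eq_infZ, rep_qh_eq_infZ, hnf_affH_eq_infAff ha he, hnf_zetaU_zpow]
  have h := infZ_infAff (M := 1) (N := N) (a := a) (d := e) (e := a * (N / e)) b ha he one_pos hN
    (by rw [mul_one, mul_assoc, Nat.div_mul_cancel heN]) τ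
  rw [mul_one] at h
  exact h

/-- translation by `1` is `T`. -/
theorem qh_T (N : ℕ) [NeZero N] (τ : ℍ) :
    qh N (ModularGroup.T • τ) = (zetaU N : ℂ) * qh N τ ^ 1 := by
  have hN : 0 < N := Nat.pos_of_ne_zero (NeZero.ne N)
  have hT : ModularGroup.T • τ = infAff 1 1 1 τ := by
    apply UpperHalfPlane.ext
    rw [infAff_coe one_pos one_pos, UpperHalfPlane.modular_T_smul]
    simp [add_comm]
  rw [rep_qh_eq_infZ, rep_qh_eq_infZ, hT]
  have h := infZ_infAff (M := N) (N := N) (a := 1) (d := 1) (e := 1) 1 one_pos one_pos hN hN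
    (by ring) τ
  rw [h, one_mul]
  congr 1
  rw [coe_zetaU, infRoot_coe]
  simp

end HNF

end Fermat.Agent.S24.Cusp
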