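import Fermat.Agent.S24.Cusp.Core

/-!
# S24 cusp package — [C-LD] `LocalData` at `∞` (helper46)

`exists_dataInf`: the `dataInf` / `orbits_inf` fields of `ModularPackage`, from an abstract `J`
with `hJinv : ∀ γ τ, J (γ • τ) = J τ` and `hJq : Rep 1 jqC J`.
-/

set_option autoImplicit false

noncomputable section

open AlgebraicCurve ModularCurve UpperHalfPlane
open scoped MatrixGroups

namespace Fermat.Agent.S24.Cusp

theorem ld_order_inv {C : Type*} [Field C] (φ : LaurentSeries C) (hφ : φ ≠ 0) :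
    (φ⁻¹).order = -φ.order := by
  have h1 : φ * φ⁻¹ = 1 := mul_inv_cancel₀ hφ
  have h2 := HahnSeries.order_mul hφ (inv_ne_zero hφ)
  rw [h1, HahnSeries.order_one] at h2
  linarith

theorem ld_numOrbits_inv {X : Type*} (π : Equiv.Perm X) : numOrbits π⁻¹ = numOrbits π := by
  unfold numOrbits
  rw [Subgroup.zpowers_inv]

theorem ld_perm_out (N : ℕ) [NeZero N] (g : SL(2, ℤ)) (x : XX N) :
    ∃ γ : SL(2, ℤ), γ ∈ CongruenceSubgroup.Gamma0 N ∧
      (permOf N g x).out = g * x.out * γ := by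
  have h1 : permOf N g x = ((g * x.out : SL(2, ℤ)) : XX N) := by
    conv_lhs => rw [← QuotientGroup.out_eq' x]
    rfl
  obtain ⟨h, hh⟩ := QuotientGroup.mk_out_eq_mul (CongruenceSubgroup.Gamma0 N) (g * x.out)
  refine ⟨h.1, h.2, ?_⟩
  rw [h1]
  exact hh

theorem ld_qExpand_jqC_ne_zero (N : ℕ) [NeZero N] : qExpand ℂ N jqC ≠ 0 := by
  intro h
  have h1 := order_qExpand (C := ℂ) N jqC
  rw [h, HahnSeries.order_zero, order_jqC] at h1
  have : (N : ℤ) ≠ 0 := by exact_mod_cast NeZero.ne N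
  omega

theorem ld_key (N : ℕ) [NeZero N] (P : CuspCore N) (x : XX N) (f : FF N) :
    P.E (permOf N ModularGroup.T⁻¹ x).out f = rotFun (zetaU N) (P.E x.out f) := by
  obtain ⟨γ, hγ, hout⟩ := ld_perm_out N ModularGroup.T⁻¹ x
  rw [hout, P.E_mul_Gamma0 _ γ hγ, P.E_T]

theorem exists_dataInf_of_cuspCore (N : ℕ) [NeZero N] (P : CuspCore N) :
    ∃ L : LocalData Kbar (FF N) ℂ (XX N) (jF N)⁻¹,
      numOrbits L.perm = numOrbits (permOf N ModularGroup.T) := by
  classical
  have hEt : ∀ g : SL(2, ℤ), P.E g (jF N)⁻¹ = (qExpand ℂ N jqC)⁻¹ := by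
    intro g
    rw [map_inv₀, P.E_j]
  refine ⟨{ m := N
            m_pos := Nat.pos_of_ne_zero (NeZero.ne N)
            ζ := (zetaU N : ℂ)
            hζ := Complex.isPrimitiveRoot_exp N (NeZero.ne N)
            ι := embC
            perm := permOf N ModularGroup.T⁻¹
            σ := fun x => P.E x.out
            σ_inj := ?_
            σ_const := fun x c => P.E_const _ c
            σ_t_eq := fun x y => by rw [hEt, hEt]
            σ_t_order := ?_
            σ_perm_order := ?_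
            σ_perm_leadingCoeff := ?_ }, ?_⟩
  · intro x y hxy
    have h := P.E_inj _ _ hxy
    have h2 : ((x.out : SL(2, ℤ)) : XX N) = ((y.out : SL(2, ℤ)) : XX N) :=
      QuotientGroup.eq.mpr h
    rwa [QuotientGroup.out_eq', QuotientGroup.out_eq'] at h2
  · intro x
    rw [hEt, ld_order_inv _ (ld_qExpand_jqC_ne_zero N), order_qExpand, order_jqC]
    ring
  · intro x f
    rw [ld_key, rotFun_order]
  · intro x f
    rw [ld_key, rotFun_leadingCoeff, Units.val_zpow_eq_zpow_val]
  · show numOrbits (permOf N ModularGroup.T⁻¹) = _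
    have : permOf N ModularGroup.T⁻¹ = (permOf N ModularGroup.T)⁻¹ := by
      unfold permOf
      ext y
      simp [MulAction.toPerm_apply, Equiv.Perm.inv_def, MulAction.toPerm_symm_apply]
    rw [this, ld_numOrbits_inv]

/-- FINAL DELIVERABLE of the cusp package. -/
theorem exists_dataInf (N : ℕ) [NeZero N]
    (J : ℍ → ℂ) (hJinv : ∀ (γ : SL(2, ℤ)) (τ : ℍ), J (γ • τ) = J τ) (hJq : Rep 1 jqC J) :
    ∃ L : LocalData Kbar (FF N) ℂ (XX N) (jF N)⁻¹,
      numOrbits L.perm = numOrbits (permOf N ModularGroup.T) := by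
  obtain ⟨P⟩ := nonempty_cuspCore N J hJinv hJq
  exact exists_dataInf_of_cuspCore N P

end Fermat.Agent.S24.Cusp
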