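import Fermat.Agent.S24.Cusp.Defs
import Fermat.Agent.S24.Inf.Gen

/-!
# S24 cusp package — [C-ROT] formal rotation (adapter over `Fermat.Agent.S24.Inf.Twist`)
-/

set_option autoImplicit false

noncomputable section

open AlgebraicCurve ModularCurve UpperHalfPlane
open scoped MatrixGroups

namespace Fermat.Agent.S24.Cusp

section ROT
variable {C : Type*} [Field C]

theorem rot_rotFun_eq_infTwist (c : Cˣ) (φ : LaurentSeries C) : rotFun c φ = infTwist c φ := by
  ext n
  rw [rotFun_coeff, infTwist_coeff, mul_comm]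

/-- `rotFun c` is a ring homomorphism. -/
theorem exists_rot (c : Cˣ) :
    ∃ r : LaurentSeries C →+* LaurentSeries C, ∀ φ, r φ = rotFun c φ :=
  ⟨infTwist c, fun φ => (rot_rotFun_eq_infTwist c φ).symm⟩

theorem rotFun_order (c : Cˣ) (φ : LaurentSeries C) : (rotFun c φ).order = φ.order := by
  rw [rot_rotFun_eq_infTwist, infTwist_order]

theorem rotFun_leadingCoeff (c : Cˣ) (φ : LaurentSeries C) :
    (rotFun c φ).leadingCoeff = ((c ^ φ.order : Cˣ) : C) * φ.leadingCoeff := by
  rw [rot_rotFun_eq_infTwist, infTwist_leadingCoeff, mul_comm]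

theorem rotFun_C (c : Cˣ) (a : C) : rotFun c (HahnSeries.C a) = HahnSeries.C a := by
  rw [rot_rotFun_eq_infTwist, infTwist_C]

theorem rotFun_one (φ : LaurentSeries C) : rotFun (1 : Cˣ) φ = φ := by
  rw [rot_rotFun_eq_infTwist, infTwist_one]

/-- order of `qExpand`. -/
theorem order_qExpand (k : ℕ) [NeZero k] (φ : LaurentSeries C) :
    (qExpand C k φ).order = (k : ℤ) * φ.order :=
  inf_qExpand_order k φ

/-- the order of `jq` is `-1` (over `ℂ`). -/
theorem order_jqC : jqC.order = -1 := infJq_order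

theorem rot_jqC_eq : jqC = infJq := rfl

end ROT

end Fermat.Agent.S24.Cusp
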